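import Fermat.Agent.S37.HI.Key
import Fermat.Agent.RL.Basic

set_option autoImplicit false
set_option linter.unusedSectionVars false

/-!
# S37 / HI / Abs : fundamental identity and norm formula for a finite extension of function fields over an algebraically closed field of characteristic `0`
-/

namespace Fermat.Agent.S37.HI

open AlgebraicCurve IsDedekindDomain Fermat.Agent.S24

variable {K F F' : Type*} [Field K] [IsAlgClosed K] [CharZero K] [Field F] [Field F'] [Algebra K F]
  [Algebra K F'] [Algebra F F'] [IsScalarTower K F F'] [FiniteDimensional F F']
  [Algebra.IsIntegral F F']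

theorem inertiaDeg_eq_one (hF : IsFF1 K F) (hF' : IsFF1 K F') (w : Place K F') :
    w.inertiaDeg F = 1 := by
  have h := w.deg_restrict_mul_inertiaDeg (F := F)
  rwa [deg_eq_one hF, deg_eq_one hF', one_mul] at h

theorem sum_ramificationIndex [HasPrincipalDivisors K F'] (hF : IsFF1 K F) (v : Place K F) :
    ∑ w ∈ v.fiber F', (w.ramificationIndex F : ℤ) = Module.finrank F F' := by
  have : CharZero F := charZero_of_injective_algebraMap (algebraMap K F).injective
  let _ : Algebra v.toValuationSubring F' :=
    ((algebraMap F F').comp (algebraMap v.toValuationSubring F)).toAlgebra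
  have : IsScalarTower v.toValuationSubring F F' := IsScalarTower.of_algebraMap_eq fun _ => rfl
  have : IsScalarTower K v.toValuationSubring F' := IsScalarTower.of_algebraMap_eq fun a => by
    rw [IsScalarTower.algebraMap_apply K F F']
    rfl
  have : Module.IsTorsionFree v.toValuationSubring F' := by
    rw [Module.isTorsionFree_iff_algebraMap_injective]
    exact (algebraMap F F').injective.comp Subtype.val_injective
  have : IsDedekindDomain (integralClosure v.toValuationSubring F') :=
    integralClosure.isDedekindDomain v.toValuationSubring F F'
  have : Module.Finite v.toValuationSubring (integralClosure v.toValuationSubring F') :=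
    IsIntegralClosure.finite v.toValuationSubring F F' _
  have : IsFractionRing (integralClosure v.toValuationSubring F') F' :=
    integralClosure.isFractionRing_of_finite_extension F F'
  exact key_sum v (integralClosure v.toValuationSubring F') hF

theorem ord_norm [HasPrincipalDivisors K F'] (hF : IsFF1 K F) (v : Place K F) {f : F'}
    (hf : f ≠ 0) : v.ord (Algebra.norm F f) = ∑ w ∈ v.fiber F', w.ord f := by
  have : CharZero F := charZero_of_injective_algebraMap (algebraMap K F).injective
  let _ : Algebra v.toValuationSubring F' :=
    ((algebraMap F F').comp (algebraMap v.toValuationSubring F)).toAlgebra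
  have : IsScalarTower v.toValuationSubring F F' := IsScalarTower.of_algebraMap_eq fun _ => rfl
  have : IsScalarTower K v.toValuationSubring F' := IsScalarTower.of_algebraMap_eq fun a => by
    rw [IsScalarTower.algebraMap_apply K F F']
    rfl
  have : Module.IsTorsionFree v.toValuationSubring F' := by
    rw [Module.isTorsionFree_iff_algebraMap_injective]
    exact (algebraMap F F').injective.comp Subtype.val_injective
  have : IsDedekindDomain (integralClosure v.toValuationSubring F') :=
    integralClosure.isDedekindDomain v.toValuationSubring F F'
  have : Module.Finite v.toValuationSubring (integralClosure v.toValuationSubring F') :=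
    IsIntegralClosure.finite v.toValuationSubring F F' _
  have : IsFractionRing (integralClosure v.toValuationSubring F') F' :=
    integralClosure.isFractionRing_of_finite_extension F F'
  exact key_norm v (integralClosure v.toValuationSubring F') hF hf

theorem sumRamificationInertia [HasPrincipalDivisors K F'] (hF : IsFF1 K F) (hF' : IsFF1 K F') :
    SumRamificationInertia K F F' where
  sum_ramificationIndex_mul_inertiaDeg v := by
    rw [← sum_ramificationIndex hF v]
    refine Finset.sum_congr rfl fun w _ => ?_
    rw [inertiaDeg_eq_one hF hF' w, Nat.cast_one, mul_one]

theorem fundamentalIdentity [HasPrincipalDivisors K F'] (hF : IsFF1 K F) (hF' : IsFF1 K F') :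
    FundamentalIdentity K F F' :=
  have := sumRamificationInertia (F := F) hF hF'
  inferInstance

theorem pushforwardNormFormula (hF : IsFF1 K F) (hF' : IsFF1 K F') :
    Divisor.PushforwardNormFormula K F F' := by
  classical
  have : HasPrincipalDivisors K F' := RL.hasPrincipalDivisors hF'
  intro f hf D hD v
  rw [ord_norm hF v hf, Divisor.pushforward_apply]
  have h1 : ∀ w ∈ D.support, (if w.restrict F = v then D w * (w.inertiaDeg F : ℤ) else 0) =
      if w ∈ v.fiber F' then w.ord f else 0 := by
    intro w _
    rw [inertiaDeg_eq_one hF hF' w, Nat.cast_one, mul_one, hD w]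
    simp only [Place.mem_fiber]
  rw [Finset.sum_congr rfl h1, ← Finset.sum_filter, ← Finset.sum_filter_ne_zero (s := v.fiber F')]
  refine Finset.sum_congr ?_ fun _ _ => rfl
  ext w
  simp only [Finset.mem_filter, Finsupp.mem_support_iff, hD w]
  tauto

end Fermat.Agent.S37.HI
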