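import Fermat.Agent.S24.SumOrd
import Fermat.Agent.S24.Residue
import Fermat.Agent.GES.NormOrd
import Fermat.Prelude.Def_AlgebraicCurve_Correspondence

set_option autoImplicit false
set_option linter.unusedSectionVars false

/-!
# S37 / HI / Key : places of `F'` over a place `v` of `F` and the integral closure of `O_v`

ABSTRACT (no modular curves).  `K` algebraically closed of characteristic `0`, `F ⊆ F'` a finite extension of function fields of one variable over `K`,
`v` a place of `F`, `S` "the" integral closure of `O_v = v.toValuationSubring` in `F'` (a Dedekind domain, finite over `O_v`).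

* `key_fiber` (task HI-Fiber): the places `w` of `F'` over `v` are the `Place.ofHeightOneSpectrum P`, `P : HeightOneSpectrum S`.
* `key_sum`   (task HI-Sum):   `∑_{w | v} e(w) = [F' : F]`.
* `key_norm`  (task HI-Norm):  `ord_v (N f) = ∑_{w | v} ord_w f`.

## SKETCHES
* `key_fiber`. (→) `S24.exists_ofHeightOneSpectrum_eq w hR`, `hR : ∀ s : S, algebraMap S F' s ∈ w.toValuationSubring`: `algebraMap S F' s` is integral over `O_v`
  (`IsIntegralClosure.isIntegral (R := O_v) (B := F') s`), `O_v → O_w` (because `w.restrict F = v`: `Place.mem_restrict_iff`), `O_w` is integrally closed in `F'`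
  (as in the Prelude proof of `comap_algebraMap_ne_top`; or: `ValuationSubring` + `Valuation.Integers.mem_of_integral` / `IsIntegrallyClosed.isIntegral_iff`; `IsIntegral.tower_top`/`IsIntegral.map`).
  (←) `w = ofHeightOneSpectrum P`: `S24.place_ext_of_le`: for `a ∈ O_v`: `algebraMap F F' a = algebraMap S F' (algebraMap O_v S a)` lies in `O_w`
  (`Place.ofHeightOneSpectrum_toValuationSubring`, `Valuation.mem_valuationSubring_iff`, `HeightOneSpectrum.valuation_le_one`).
* `key_sum`. `π` a uniformiser of `O_v` (`IsDiscreteValuationRing.exists_irreducible`, `Irreducible.prime`), `S24.SumOrd.sum_general (K := K) (A := O_v) (E := F) (B := S) (F := F') π hπ hsurj`,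
  `hsurj` from `S24.exists_const_sub hF v` (+ `Irreducible.maximalIdeal_eq`, `S24.ord_pos_of_mem_maximalIdeal`-type lemmas in `S24/Residue.lean`).  The finset `s` is the fibre: by `key_fiber` and: every `P` contains `π`
  (`P.asIdeal.under O_v` is a nonzero prime of the DVR: `Ideal.IsMaximal.under`/`Ideal.ne_bot_of_liesOver..`; or directly: `w.restrict F = v` gives `0 < w.ord π`, `S24.ord_ofHeightOneSpectrum_pos_iff`).
  `w.ord (algebraMap F F' π) = e(w) * v.ord π = e(w)` (`Place.ord_restrict`, `Place.ord_coe_irreducible`).
* `key_norm`. First `f = algebraMap S F' s`, `s ≠ 0`: `span {s} = ∏ P ^ n_P` (`Ideal.finprod_heightOneSpectrum_factorization` or `Ideal.prod_normalizedFactors_eq_self`), `n_P = ord_{w_P} s` (`GES.NormOrd.ord_eq_count`);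
  `Ideal.relNorm O_v` is multiplicative, `Ideal.relNorm_singleton`, `Ideal.relNorm_eq_pow_of_isMaximal P 𝔪_v : relNorm P = 𝔪_v ^ P.inertiaDeg O_v` and the inertia degree is `1` (`S24.SumOrd.inertia_eq_one`; convert `inertiaDeg'`/`inertiaDeg`);
  so `span {intNorm s} = 𝔪_v ^ (∑ n_P)`, `Algebra.algebraMap_intNorm`, `𝔪_v = span {π}`: `intNorm s = unit * π ^ ∑ n_P`, `Place.ord_unit_smul_zpow`.
  General `f = a / b` (`IsFractionRing.div_surjective`), `map_div₀`, `S24.ord_div`, `Finset.sum_sub_distrib`.
-/

namespace Fermat.Agent.S37.HI

open AlgebraicCurve IsDedekindDomain Fermat.Agent.S24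

variable {K F F' : Type*} [Field K] [IsAlgClosed K] [CharZero K] [Field F] [Field F'] [Algebra K F]
  [Algebra K F'] [Algebra F F'] [IsScalarTower K F F'] [FiniteDimensional F F']
  [Algebra.IsIntegral F F'] (v : Place K F) {S : Type*} [CommRing S] [IsDedekindDomain S]
  [Algebra v.toValuationSubring S] [Algebra S F'] [Algebra v.toValuationSubring F']
  [IsScalarTower v.toValuationSubring S F'] [IsScalarTower v.toValuationSubring F F']
  [IsIntegralClosure S v.toValuationSubring F'] [IsFractionRing S F']
  [Module.Finite v.toValuationSubring S] [Module.IsTorsionFree v.toValuationSubring S]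
  [Algebra K S] [IsScalarTower K S F'] [IsScalarTower K v.toValuationSubring S]

variable (S) in
theorem key_fiber (w : Place K F') :
    w.restrict F = v ↔ ∃ P : HeightOneSpectrum S, Place.ofHeightOneSpectrum (K := K) P = w := by
  have hcoe : ∀ a : v.toValuationSubring,
      algebraMap v.toValuationSubring F' a = algebraMap F F' (a : F) := fun a =>
    IsScalarTower.algebraMap_apply v.toValuationSubring F F' a
  constructor
  · intro hw
    apply exists_ofHeightOneSpectrum_eq w
    intro s
    have hmem : ∀ a : v.toValuationSubring,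
        algebraMap v.toValuationSubring F' a ∈ w.toValuationSubring := by
      intro a
      rw [hcoe, ← Place.mem_restrict_iff, hw]
      exact a.2
    obtain ⟨p, hp, hp0⟩ := (IsIntegralClosure.isIntegral (R := v.toValuationSubring) (B := F') s).algebraMap
      (B := F')
    let φ : v.toValuationSubring →+* w.toValuationSubring :=
      (algebraMap v.toValuationSubring F').codRestrict w.toValuationSubring.toSubring hmem
    have hφ : (algebraMap w.toValuationSubring F').comp φ = algebraMap v.toValuationSubring F' := by
      ext a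
      rfl
    have hint : IsIntegral w.toValuationSubring (algebraMap S F' s) := by
      refine ⟨p.map φ, hp.map φ, ?_⟩
      rw [Polynomial.eval₂_map, hφ]
      exact hp0
    obtain ⟨y, hy⟩ := IsIntegrallyClosed.isIntegral_iff.mp hint
    rw [← hy]
    exact y.2
  · rintro ⟨P, rfl⟩
    refine (place_ext_of_le fun f hf => ?_).symm
    rw [Place.mem_restrict_iff]
    have h1 : algebraMap F F' f = algebraMap S F' (algebraMap v.toValuationSubring S ⟨f, hf⟩) := by
      rw [← IsScalarTower.algebraMap_apply v.toValuationSubring S F', hcoe]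
    rw [h1, Place.ofHeightOneSpectrum_toValuationSubring, Valuation.mem_valuationSubring_iff]
    exact P.valuation_le_one _

variable (S) in
include S in
theorem key_sum [HasPrincipalDivisors K F'] (hF : IsFF1 K F) :
    ∑ w ∈ v.fiber F', (w.ramificationIndex F : ℤ) = Module.finrank F F' := by
  classical
  obtain ⟨π, hπ⟩ := IsDiscreteValuationRing.exists_irreducible v.toValuationSubring
  have hsurj : ∀ x : v.toValuationSubring,
      ∃ c : K, x - algebraMap K v.toValuationSubring c ∈ Ideal.span {π} := by
    intro x
    obtain ⟨c, hc⟩ := (residue_bijective hF v).2 (IsLocalRing.residue v.toValuationSubring x)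
    refine ⟨c, ?_⟩
    have hc' : IsLocalRing.residue v.toValuationSubring (algebraMap K v.toValuationSubring c) =
        IsLocalRing.residue v.toValuationSubring x := by
      rw [← hc]
      exact (IsScalarTower.algebraMap_apply K v.toValuationSubring v.ResidueField c).symm
    rw [← hπ.maximalIdeal_eq, ← IsLocalRing.residue_eq_zero_iff, map_sub, hc', sub_self]
  obtain ⟨s, hs, hsum⟩ := SumOrd.sum_general (K := K) (A := v.toValuationSubring) (E := F) (B := S)
    (F := F') π hπ.prime hsurj
  have hcoe : algebraMap v.toValuationSubring F' π = algebraMap F F' (π : F) :=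
    IsScalarTower.algebraMap_apply v.toValuationSubring F F' π
  have hord : ∀ w : Place K F', w.restrict F = v →
      w.ord (algebraMap v.toValuationSubring F' π) = (w.ramificationIndex F : ℤ) := by
    intro w hw
    rw [hcoe, w.ord_restrict, hw, v.ord_coe_irreducible hπ, mul_one]
  have hπS : algebraMap v.toValuationSubring S π ≠ 0 := by
    intro h0
    have h1 : algebraMap v.toValuationSubring F' π = 0 := by
      rw [IsScalarTower.algebraMap_apply v.toValuationSubring S F', h0, map_zero]
    rw [hcoe, map_eq_zero] at h1
    exact hπ.ne_zero (Subtype.ext h1)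
  have hseq : s = v.fiber F' := by
    ext w
    rw [hs, Place.mem_fiber, key_fiber v S w]
    constructor
    · rintro ⟨P, -, h⟩
      exact ⟨P, h⟩
    · rintro ⟨P, h⟩
      refine ⟨P, ?_, h⟩
      rw [← ord_ofHeightOneSpectrum_pos_iff (K := K) (F := F') P hπS,
        ← IsScalarTower.algebraMap_apply v.toValuationSubring S F', h,
        hord w ((key_fiber v S w).mpr ⟨P, h⟩)]
      exact_mod_cast w.ramificationIndex_pos (F := F)
  rw [← hseq, ← hsum]
  refine Finset.sum_congr rfl fun w hw => ?_
  rw [hseq, Place.mem_fiber] at hw
  exact (hord w hw).symm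

/-- the residue condition in the form used by `SumOrd.inertia_eq_one`. -/
theorem norm_hsurj (hF : IsFF1 K F) (x : v.toValuationSubring) :
    ∃ c : K, x - algebraMap K v.toValuationSubring c ∈
      IsLocalRing.maximalIdeal v.toValuationSubring := by
  obtain ⟨c, hc⟩ := (S24.residue_bijective hF v).2 (IsLocalRing.residue v.toValuationSubring x)
  refine ⟨c, ?_⟩
  rw [← IsLocalRing.residue_eq_zero_iff, map_sub, ← hc, sub_eq_zero]
  exact IsScalarTower.algebraMap_apply K v.toValuationSubring v.ResidueField c

/-- every nonzero prime of `S` has relative norm `𝔪_v`. -/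
theorem norm_relNorm_prime (hF : IsFF1 K F) (P : Ideal S) (hP : P.IsPrime) (hP0 : P ≠ ⊥) :
    Ideal.relNorm v.toValuationSubring P = IsLocalRing.maximalIdeal v.toValuationSubring := by
  have hc0 : CharZero v.toValuationSubring :=
    charZero_of_injective_algebraMap (algebraMap K v.toValuationSubring).injective
  have hc1 : CharZero (FractionRing v.toValuationSubring) :=
    charZero_of_injective_algebraMap
      (IsFractionRing.injective v.toValuationSubring (FractionRing v.toValuationSubring))
  have hPm : P.IsMaximal := hP.isMaximal hP0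
  have hu : (P.under v.toValuationSubring).IsMaximal := Ideal.IsMaximal.under _ P
  have hlo : P.LiesOver (IsLocalRing.maximalIdeal v.toValuationSubring) :=
    ⟨(IsLocalRing.eq_maximalIdeal hu).symm⟩
  rw [Ideal.relNorm_eq_pow_of_isMaximal P (IsLocalRing.maximalIdeal v.toValuationSubring),
    ← Ideal.inertiaDeg'_eq_inertiaDeg (IsLocalRing.maximalIdeal v.toValuationSubring) P,
    SumOrd.inertia_eq_one (K := K) _ (norm_hsurj v hF) P, pow_one]


/-- the order of the norm of an integral element. -/
theorem norm_ord_int (hF : IsFF1 K F) {s : S} (hs : s ≠ 0) :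
    v.ord (Algebra.norm F (algebraMap S F' s)) =
      (Multiset.card (UniqueFactorizationMonoid.normalizedFactors (Ideal.span {s})) : ℤ) := by
  classical
  have hI : Ideal.span {s} ≠ ⊥ := by simpa using hs
  set M := UniqueFactorizationMonoid.normalizedFactors (Ideal.span {s}) with hM
  have hprod : M.prod = Ideal.span {s} := Ideal.prod_normalizedFactors_eq_self hI
  have h1 : Ideal.relNorm v.toValuationSubring M.prod =
      IsLocalRing.maximalIdeal v.toValuationSubring ^ Multiset.card M := by
    rw [map_multiset_prod, Multiset.map_congr rfl (g := fun _ =>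
      IsLocalRing.maximalIdeal v.toValuationSubring) (fun P hP => ?_), Multiset.map_const',
      Multiset.prod_replicate]
    have hprime := UniqueFactorizationMonoid.prime_of_normalized_factor P hP
    exact norm_relNorm_prime v hF P (Ideal.isPrime_of_prime hprime) hprime.ne_zero
  rw [hprod, Ideal.relNorm_singleton] at h1
  obtain ⟨π, hπ⟩ := IsDiscreteValuationRing.exists_irreducible v.toValuationSubring
  rw [hπ.maximalIdeal_eq, Ideal.span_singleton_pow, Ideal.span_singleton_eq_span_singleton] at h1
  obtain ⟨u, hu⟩ := h1.symm
  have h2 : algebraMap v.toValuationSubring F (Algebra.intNorm v.toValuationSubring S s) =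
      Algebra.norm F (algebraMap S F' s) := Algebra.algebraMap_intNorm s
  rw [← h2, ← hu]
  have h3 := v.ord_unit_smul_zpow u hπ (Multiset.card M : ℤ)
  rw [← h3]
  congr 1
  rw [zpow_natCast, mul_comm]
  rfl

/-- the sum of the orders of an integral element over the fibre. -/
theorem norm_sum_int [HasPrincipalDivisors K F'] {s : S} (hs : s ≠ 0) :
    ∑ w ∈ v.fiber F', w.ord (algebraMap S F' s) =
      (Multiset.card (UniqueFactorizationMonoid.normalizedFactors (Ideal.span {s})) : ℤ) := by
  classical
  have hI : Ideal.span {s} ≠ ⊥ := by simpa using hs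
  set M := UniqueFactorizationMonoid.normalizedFactors (Ideal.span {s}) with hM
  have hord : ∀ P : HeightOneSpectrum S,
      (Place.ofHeightOneSpectrum (K := K) (F := F') P).ord (algebraMap S F' s) =
        (M.count P.asIdeal : ℤ) := by
    intro P
    rw [GES.NormOrd.ord_eq_count (K := K) (E := F') P hs,
      Ideal.count_associates_factors_eq hI P.isPrime P.ne_bot]
  let g : {P // P ∈ M.toFinset} → HeightOneSpectrum S := fun P =>
    have hprime := UniqueFactorizationMonoid.prime_of_normalized_factor P.1
      (Multiset.mem_toFinset.mp P.2)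
    ⟨P.1, Ideal.isPrime_of_prime hprime, hprime.ne_zero⟩
  have hginj : Function.Injective g := by
    intro P Q h
    exact Subtype.ext (congrArg HeightOneSpectrum.asIdeal h)
  have hsub : M.toFinset.attach.image (fun P => Place.ofHeightOneSpectrum (K := K) (F := F') (g P)) ⊆
      v.fiber F' := by
    intro w hw
    obtain ⟨P, -, rfl⟩ := Finset.mem_image.mp hw
    exact Place.mem_fiber.mpr ((key_fiber v S _).mpr ⟨g P, rfl⟩)
  rw [← Finset.sum_subset hsub, Finset.sum_image
    (fun P _ Q _ h => hginj (ofHeightOneSpectrum_injective h))]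
  · rw [← Multiset.toFinset_sum_count_eq M, ← Finset.sum_attach M.toFinset]
    push_cast
    exact Finset.sum_congr rfl fun P _ => hord (g P)
  · intro w hw hw'
    obtain ⟨P, rfl⟩ := (key_fiber v S w).mp (Place.mem_fiber.mp hw)
    rw [hord P]
    have : P.asIdeal ∉ M := by
      intro hmem
      apply hw'
      exact Finset.mem_image.mpr ⟨⟨P.asIdeal, Multiset.mem_toFinset.mpr hmem⟩, Finset.mem_attach _ _, rfl⟩
    rw [Multiset.count_eq_zero_of_notMem this]
    rfl

variable (S) in
include S in
theorem key_norm [HasPrincipalDivisors K F'] (hF : IsFF1 K F) {f : F'} (hf : f ≠ 0) :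
    v.ord (Algebra.norm F f) = ∑ w ∈ v.fiber F', w.ord f := by
  obtain ⟨a, b, hb, rfl⟩ := IsFractionRing.div_surjective (A := S) f
  have hb0 : b ≠ 0 := nonZeroDivisors.ne_zero hb
  have hb' : algebraMap S F' b ≠ 0 := by
    simpa using (IsFractionRing.injective S F').ne hb0
  have ha0 : a ≠ 0 := by
    rintro rfl
    simp at hf
  have ha' : algebraMap S F' a ≠ 0 := by
    simpa using (IsFractionRing.injective S F').ne ha0
  have hNa : Algebra.norm F (algebraMap S F' a) ≠ 0 := by
    rw [Algebra.norm_ne_zero_iff]; exact ha'
  have hNb : Algebra.norm F (algebraMap S F' b) ≠ 0 := by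
    rw [Algebra.norm_ne_zero_iff]; exact hb'
  have hdiv : Algebra.norm F (algebraMap S F' a / algebraMap S F' b) =
      Algebra.norm F (algebraMap S F' a) / Algebra.norm F (algebraMap S F' b) := by
    rw [eq_div_iff hNb, ← map_mul, div_mul_cancel₀ _ hb']
  rw [hdiv, S24.ord_div v hNa hNb, norm_ord_int v hF ha0, norm_ord_int v hF hb0,
    ← norm_sum_int (F' := F') v ha0, ← norm_sum_int (F' := F') v hb0, ← Finset.sum_sub_distrib]
  exact Finset.sum_congr rfl fun w _ => (S24.ord_div w ha' hb').symm

end Fermat.Agent.S37.HI
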