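import Fermat.Agent.S37.HI.Abs
import Fermat.Agent.GES.Fin
import Fermat.Prelude.Def_ModularCurve_HeckeModule

set_option autoImplicit false
set_option linter.unusedSectionVars false

/-!
# S37 / HI / Main : `HeckeInputsAlong ℚ̄ N ℓ`, so `heckeOperatorBar` is the honest Hecke correspondence on `J₀(N)`
-/

noncomputable section

namespace Fermat.Agent.S37.HI

open AlgebraicCurve ModularCurve Fermat.Agent.S24

section along

variable {K F F' : Type*} [Field K] [IsAlgClosed K] [CharZero K] [Field F] [Field F'] [Algebra K F]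
  [Algebra K F']

theorem fundamentalIdentityAlong [HasPrincipalDivisors K F'] (hF : IsFF1 K F) (hF' : IsFF1 K F')
    (φ : F →ₐ[K] F') (hφ : φ.toRingHom.IsIntegral) (hfin : FiniteAlong K φ) :
    FundamentalIdentityAlong K φ hφ := by
  unfold FundamentalIdentityAlong
  let _ := algebraAlong φ
  have := isScalarTower_along φ
  have := isIntegral_along φ hφ
  have : FiniteDimensional F F' := hfin
  exact fundamentalIdentity hF hF'

theorem normFormulaAlong (hF : IsFF1 K F) (hF' : IsFF1 K F') (φ : F →ₐ[K] F')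
    (hfin : FiniteAlong K φ) : NormFormulaAlong K φ hfin := by
  unfold NormFormulaAlong
  let _ := algebraAlong φ
  have := isScalarTower_along φ
  have : FiniteDimensional F F' := hfin
  exact pushforwardNormFormula hF hF'

end along

variable (N ℓ : ℕ) [NeZero N] [NeZero ℓ]

instance instHPD : HasPrincipalDivisors Kb (FN N) := RL.hasPrincipalDivisors (isFF1_FN N)

theorem finite_beta : FiniteAlong Kb (heckeBetaBar Kb N ℓ) := by
  have htr : Transcendental Kb (heckeBetaBar Kb N ℓ (S24.jF N)) :=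
    fun h => S24.transcendental_jF N
      ((isAlgebraic_algHom_iff (heckeBetaBar Kb N ℓ) (heckeBetaBar Kb N ℓ).injective).mp h)
  have : FiniteDimensional (IntermediateField.adjoin Kb {heckeBetaBar Kb N ℓ (S24.jF N)})
      (FN (N * ℓ)) := (S24.isFF1_FN (N * ℓ)).finiteDimensional htr
  exact GES.finite_along_of_adjoin (heckeBetaBar Kb N ℓ) (S24.jF N)

theorem fi_beta : FundamentalIdentityAlong Kb (heckeBetaBar Kb N ℓ) (GES.isIntegral_beta N ℓ) :=
  fundamentalIdentityAlong (isFF1_FN N) (isFF1_FN (N * ℓ)) _ _ (finite_beta N ℓ)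

theorem nf_alpha : NormFormulaAlong Kb (heckeAlphaBar Kb N ℓ) (GES.finite_alpha N ℓ) :=
  normFormulaAlong (isFF1_FN N) (isFF1_FN (N * ℓ)) _ _

/-- **HI**. -/
theorem heckeInputsAlong : HeckeInputsAlong Kb N ℓ :=
  heckeInputsAlong_intro (GES.isIntegral_alpha N ℓ) (GES.isIntegral_beta N ℓ) (fi_beta N ℓ)
    (GES.finite_alpha N ℓ) (nf_alpha N ℓ)

theorem heckeOperatorAlong_eq' : heckeOperatorAlong Kb N ℓ =
    heckePic0Bar (GES.isIntegral_alpha N ℓ) (GES.isIntegral_beta N ℓ) (fi_beta N ℓ)
      (GES.finite_alpha N ℓ) (nf_alpha N ℓ) :=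
  heckeOperatorAlong_eq _ _ _ _ _

end Fermat.Agent.S37.HI
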